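/-
K-machine (row 37 / S59), piece EVEN: THE OUTPUT POINT WITH EVEN SCALARS   (helper27)
Mathlib-only (on top of `RT/K4`).

`rteven_out_T0_of_dim` is `rtk4_out_T0_of_dim` (`RT/K4/OutT0.lean`) in the situation where only
the scalars in the image of a finite injective ring homomorphism `sq : S″ → S` act through the
rings `R1`, `Rχ` (in the application `S″ = S = O[[w]]` and `sq` is `w_i ↦ w_i ^ 2` on the
Taylor–Wiles variables).  The module `S^d` is regarded over `S″` through `sq`; the support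
argument `rtk4_out_weak_of_dim` gives a prime `P'` of `R1` over the prime `𝔞″` of `S″` which
contains every `r` with `r S^d ⊆ sq(𝔞″) S^d`.  If `𝔞 ^ k ≤ sq(𝔞″) S`, the kernel of the action
of `R1` on the base `S^d ⧸ 𝔞 S^d` is contained in `P'` (`r S^d ⊆ 𝔞 S^d ⇒ r ^ k S^d ⊆ sq(𝔞″) S^d`),
and lying over for the integral extension `R1 ⧸ ker → T0` gives the prime of `T0`.
-/
import Fermat.Agent.RT.K4.OutT0

set_option autoImplicit false
set_option linter.style.haveILetI false

namespace Fermat.Agent.RT.Even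

open Function Fermat.Agent.RT.K4

section Aux

variable {S : Type*} [CommRing S] {d : ℕ}

/-- the entries of `A ^ k` lie in `I ^ k` when the entries of `A` lie in `I` -/
theorem rteven_pow_entries (I : Ideal S) (A : Matrix (Fin d) (Fin d) S)
    (hA : ∀ i j, A i j ∈ I) (k : ℕ) : ∀ i j, (A ^ k) i j ∈ I ^ k := by
  induction k with
  | zero =>
    intro i j
    rw [pow_zero, Ideal.one_eq_top]
    exact Submodule.mem_top
  | succ k ih =>
    intro i j
    rw [pow_succ A, Matrix.mul_apply, pow_succ I]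
    exact Ideal.sum_mem _ fun l _ => Ideal.mul_mem_mul (ih i l) (hA l j)

/-- the entries of `A.mulVec v` lie in `I` when the entries of `A` lie in `I` -/
theorem rteven_mulVec_mem (I : Ideal S) (A : Matrix (Fin d) (Fin d) S)
    (hA : ∀ i j, A i j ∈ I) (v : Fin d → S) (i : Fin d) : A.mulVec v i ∈ I := by
  rw [Matrix.mulVec, dotProduct]
  exact Ideal.sum_mem _ fun j _ => Ideal.mul_mem_right _ _ (hA i j)

variable {S'' : Type*} [CommRing S''] [Algebra S'' S]

/-- `x ∈ 𝔞″ S` ⇒ `x • v ∈ 𝔞″ • ⊤` (as an `S″`-submodule of `S^d`) -/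
theorem rteven_smul_mem_of_mem_map (A : Ideal S'') (x : S)
    (hx : x ∈ A.map (algebraMap S'' S)) (v : Fin d → S) :
    x • v ∈ (A • ⊤ : Submodule S'' (Fin d → S)) := by
  unfold Ideal.map at hx
  induction hx using Submodule.span_induction generalizing v with
  | mem y hy =>
    obtain ⟨a, ha, rfl⟩ := hy
    have : algebraMap S'' S a • v = a • v := by
      ext i
      rw [Pi.smul_apply, Pi.smul_apply, smul_eq_mul, Algebra.smul_def]
    rw [this]
    exact Submodule.smul_mem_smul ha Submodule.mem_top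
  | zero =>
    rw [zero_smul]
    exact Submodule.zero_mem _
  | add y z _ _ hy hz =>
    rw [add_smul]
    exact Submodule.add_mem _ (hy v) (hz v)
  | smul s y _ hy =>
    rw [smul_eq_mul, mul_comm, mul_smul]
    exact hy (s • v)

/-- a vector with all coordinates in `𝔞″ S` lies in `𝔞″ • ⊤` -/
theorem rteven_mem_smul_top_of_forall_mem (A : Ideal S'') (w : Fin d → S)
    (h : ∀ i, w i ∈ A.map (algebraMap S'' S)) :
    w ∈ (A • ⊤ : Submodule S'' (Fin d → S)) := by
  have hw : w = ∑ i, w i • (Pi.single i (1 : S) : Fin d → S) := by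
    ext j
    rw [Finset.sum_apply]
    simp [Pi.single_apply]
  rw [hw]
  exact Submodule.sum_mem _ fun i _ => rteven_smul_mem_of_mem_map A (w i) (h i) _

end Aux

section Out

variable {O : Type*} [CommRing O] {S'' S : Type*} [CommRing S''] [CommRing S]
  [Algebra O S''] [Algebra O S]
  {R0 R1 Rχ Rb : Type*} [CommRing R0] [CommRing R1] [Algebra O R1]
  [CommRing Rχ] [Algebra O Rχ] [CommRing Rb]

/-- **The output of the machine in the base Hecke ring, even scalars** (from
`dim Rχ ≤ dim S″`). -/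
theorem rteven_out_T0_of_dim [IsDomain S] [Nontrivial S'']
    (sq : S'' →ₐ[O] S) (hsq : Injective sq) (hfin : (sq : S'' →+* S).Finite)
    (hS : ringKrullDim S'' ≠ ⊤)
    [IsNoetherianRing R1] [IsNoetherianRing Rχ] [IsDomain Rχ]
    (hRS : ringKrullDim Rχ ≤ ringKrullDim S'')
    (lam : O) (hlam0 : algebraMap O S lam ≠ 0)
    (𝔞'' : Ideal S'') [𝔞''.IsPrime] (hlam𝔞 : algebraMap O S'' lam ∉ 𝔞'')
    (𝔞 : Ideal S) (k : ℕ) (h𝔞 : 𝔞 ^ k ≤ 𝔞''.map (sq : S'' →+* S))
    (f1 : R1 →+* Rb) (fχ : Rχ →+* Rb) (hf1 : Surjective f1) (hfχ : Surjective fχ)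
    (hk1 : RingHom.ker f1 ≤ Ideal.span {algebraMap O R1 lam})
    (hkχ : fχ (algebraMap O Rχ lam) = 0)
    {d : ℕ} (hd : 0 < d)
    (ρ1 : R1 →ₐ[O] Matrix (Fin d) (Fin d) S) (ρχ : Rχ →ₐ[O] Matrix (Fin d) (Fin d) S)
    (hcong : ∀ r1 rχ, f1 r1 = fχ rχ →
      (ρ1 r1).map (Ideal.Quotient.mk (Ideal.span {algebraMap O S lam})) =
        (ρχ rχ).map (Ideal.Quotient.mk (Ideal.span {algebraMap O S lam})))
    (hscal1 : ∀ s : S'', ∃ r, ρ1 r = algebraMap S (Matrix (Fin d) (Fin d) S) (sq s))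
    (hscalχ : ∀ s : S'', ∃ r, ρχ r = algebraMap S (Matrix (Fin d) (Fin d) S) (sq s))
    (ι : R0 →+* R1) (Iur : Ideal R0)
    (𝔮 : Ideal R1) [𝔮.IsPrime] (h𝔮 : algebraMap O R1 lam ∈ 𝔮)
    (hCr : ∀ x ∈ Iur, ∃ (e : ℕ) (D : R1), D ∉ 𝔮 ∧ algebraMap O R1 lam ^ e * D * ι x = 0)
    {T0 : Type*} [CommRing T0] [Algebra O T0] [Algebra.IsIntegral O T0]
    (j : T0 →ₐ[O] Matrix (Fin d) (Fin d) (S ⧸ 𝔞)) (hj : Injective j)
    (hbase : ∀ r1 : R1, ∃ t : T0, j t = (ρ1 r1).map (Ideal.Quotient.mk 𝔞))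
    (θ : R0 → T0) (hθ : ∀ r0 : R0, j (θ r0) = (ρ1 (ι r0)).map (Ideal.Quotient.mk 𝔞)) :
    ∃ 𝔓 : Ideal T0, 𝔓.IsPrime ∧ algebraMap O T0 lam ∉ 𝔓 ∧ ∀ x ∈ Iur, θ x ∈ 𝔓 := by
  -- `S` as an algebra over `S″` through `sq`
  letI algSq : Algebra S'' S := (sq : S'' →+* S).toAlgebra
  haveI finSq : Module.Finite S'' S := hfin
  have hsqdef : ∀ s : S'', algebraMap S'' S s = sq s := fun _ => rfl
  have hsmulS : ∀ (s : S'') (v : Fin d → S), s • v = sq s • v := by
    intro s v
    ext i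
    rw [Pi.smul_apply, Pi.smul_apply, smul_eq_mul, Algebra.smul_def, hsqdef]
  letI m1 : Module R1 (Fin d → S) := rtk4MatModule (ρ1 : R1 →+* Matrix (Fin d) (Fin d) S)
  letI mχ : Module Rχ (Fin d → S) := rtk4MatModule (ρχ : Rχ →+* Matrix (Fin d) (Fin d) S)
  have hsmul1 : ∀ (r : R1) (v : Fin d → S), r • v = (ρ1 r).mulVec v := fun _ _ => rfl
  have hsmulχ : ∀ (r : Rχ) (v : Fin d → S), r • v = (ρχ r).mulVec v := fun _ _ => rfl
  haveI : Nonempty (Fin d) := ⟨⟨0, hd⟩⟩
  -- `S″` acts through `R1` and `Rχ`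
  have hc1 : ∀ s : S'', ∃ r : R1, ∀ m : Fin d → S, r • m = s • m := by
    intro s
    obtain ⟨r, hr⟩ := hscal1 s
    exact ⟨r, fun m => by rw [hsmul1, hr, rtk4_algebraMap_mulVec, hsmulS]⟩
  have hcχ : ∀ s : S'', ∃ r : Rχ, ∀ m : Fin d → S, r • m = s • m := by
    intro s
    obtain ⟨r, hr⟩ := hscalχ s
    exact ⟨r, fun m => by rw [hsmulχ, hr, rtk4_algebraMap_mulVec, hsmulS]⟩
  -- the constants of `O` act as constants
  have hO1 : ∀ (c : O) (m : Fin d → S), algebraMap O R1 c • m = algebraMap O S c • m := by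
    intro c m
    rw [hsmul1, AlgHom.commutes, IsScalarTower.algebraMap_apply O S (Matrix (Fin d) (Fin d) S),
      rtk4_algebraMap_mulVec]
  have hOχ : ∀ (c : O) (m : Fin d → S), algebraMap O Rχ c • m = algebraMap O S c • m := by
    intro c m
    rw [hsmulχ, AlgHom.commutes, IsScalarTower.algebraMap_apply O S (Matrix (Fin d) (Fin d) S),
      rtk4_algebraMap_mulVec]
  have hOS : ∀ (c : O) (m : Fin d → S), algebraMap O S'' c • m = algebraMap O S c • m := by
    intro c m
    rw [hsmulS, AlgHom.commutes]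
  -- torsion-freeness over `S″`
  have htf : ∀ (s : S'') (m : Fin d → S), s • m = 0 → s = 0 ∨ m = 0 := by
    intro s m h
    by_cases hs : s = 0
    · exact Or.inl hs
    · right
      have hs' : sq s ≠ 0 := fun h0 => hs (hsq (by rw [h0, map_zero]))
      ext i
      have := congrFun h i
      rw [hsmulS, Pi.smul_apply, smul_eq_mul, Pi.zero_apply] at this
      exact (mul_eq_zero.mp this).resolve_left hs'
  -- the relation between the two reductions
  have hrel : ∀ (a : R1) (r : Rχ), f1 a = fχ r → (∀ m : Fin d → S, a • m = 0) →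
      ∀ m : Fin d → S, ∃ m' : Fin d → S, r • m = algebraMap O Rχ lam • m' := by
    intro a r har ha m
    have h0 : ρ1 a = 0 := rtk4_eq_zero_of_mulVec _ fun v => by rw [← hsmul1]; exact ha v
    have h1 := hcong a r har
    rw [h0] at h1
    have h2 : (ρχ r).map (Ideal.Quotient.mk (Ideal.span {algebraMap O S lam})) = 0 := by
      rw [← h1]
      ext i j
      simp
    obtain ⟨N, hN⟩ := rtk4_exists_smul_of_map_eq_zero _ _ h2
    refine ⟨N.mulVec m, ?_⟩
    rw [hOχ, hsmulχ, hN, Matrix.smul_mulVec]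
  obtain ⟨P', hprime, hAnn, hG, hiff, hker⟩ :=
    rtk4_out_weak_of_dim (S := S'') (R₁ := R1) (Rχ := Rχ) (Rb := Rb)
      (M₁ := Fin d → S) (Mχ := Fin d → S) hc1 hcχ htf htf hS hRS f1 fχ hf1 hfχ
      (algebraMap O R1 lam) (algebraMap O Rχ lam) hk1 hkχ hrel 𝔮 h𝔮 𝔞'' (ι '' (Iur : Set R0))
      (by
        rintro _ ⟨x, hx, rfl⟩
        obtain ⟨e, D, hD, h0⟩ := hCr x hx
        refine ⟨algebraMap O S'' lam ^ e, algebraMap O R1 lam ^ e, D, ?_,
          fun m => ?_, hD, ?_⟩
        · intro h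
          have h3 : sq (algebraMap O S'' lam ^ e) = 0 := by rw [h, map_zero]
          rw [map_pow, AlgHom.commutes] at h3
          exact pow_ne_zero e hlam0 h3
        · rw [← map_pow, ← map_pow, hO1, hOS]
        · rw [mul_comm D, h0])
  -- the kernel of the action on the base lies in `P'`
  have hkerbase : ∀ r : R1, (ρ1 r).map (Ideal.Quotient.mk 𝔞) = 0 → r ∈ P' := by
    intro r hr
    apply hprime.mem_of_pow_mem k
    apply hker
    intro m
    rw [hsmul1, map_pow]
    apply rteven_mem_smul_top_of_forall_mem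
    intro i
    apply h𝔞
    apply rteven_mulVec_mem
    apply rteven_pow_entries
    intro a b
    have := congrFun (congrFun hr a) b
    rwa [Matrix.map_apply, Matrix.zero_apply, Ideal.Quotient.eq_zero_iff_mem] at this
  -- the action of `R1` on the base, as a ring homomorphism to `T0`
  choose ρb hρb using hbase
  have hρb' : ∀ r, j (ρb r) = (Ideal.Quotient.mk 𝔞).mapMatrix (ρ1 r) := hρb
  let ρbar : R1 →+* T0 :=
    { toFun := ρb
      map_one' := hj (by
        rw [hρb', map_one ρ1, map_one (Ideal.Quotient.mk 𝔞).mapMatrix, map_one j])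
      map_mul' := fun a b => hj (by
        rw [map_mul j, hρb', hρb', hρb', map_mul ρ1, map_mul (Ideal.Quotient.mk 𝔞).mapMatrix])
      map_zero' := hj (by
        rw [hρb', map_zero ρ1, map_zero (Ideal.Quotient.mk 𝔞).mapMatrix, map_zero j])
      map_add' := fun a b => hj (by
        rw [map_add j, hρb', hρb', hρb', map_add ρ1, map_add (Ideal.Quotient.mk 𝔞).mapMatrix]) }
  have hρbar : ∀ r, j (ρbar r) = (ρ1 r).map (Ideal.Quotient.mk 𝔞) := hρb
  have hρO : ∀ c : O, ρbar (algebraMap O R1 c) = algebraMap O T0 c := by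
    intro c
    apply hj
    rw [hρbar, AlgHom.commutes, AlgHom.commutes,
      IsScalarTower.algebraMap_apply O S (Matrix (Fin d) (Fin d) S), rtk4_map_algebraMap_mk,
      IsScalarTower.algebraMap_apply O (S ⧸ 𝔞) (Matrix (Fin d) (Fin d) (S ⧸ 𝔞))]
    rfl
  letI : Algebra R1 T0 := ρbar.toAlgebra
  haveI : IsScalarTower O R1 T0 := IsScalarTower.of_algebraMap_eq fun c => (hρO c).symm
  haveI : Algebra.IsIntegral R1 T0 := Algebra.IsIntegral.tower_top (R := O)
  obtain ⟨Q, -, hQprime, hQ⟩ := Ideal.exists_ideal_over_prime_of_isIntegral P' (⊥ : Ideal T0) (by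
    intro r hr
    rw [Ideal.mem_comap, Ideal.mem_bot] at hr
    apply hkerbase
    have h0 : ρbar r = 0 := hr
    rw [← hρbar, h0, map_zero])
  have hmem : ∀ r : R1, ρbar r ∈ Q ↔ r ∈ P' := by
    intro r
    rw [← hQ]
    rfl
  refine ⟨Q, hQprime, ?_, ?_⟩
  · intro h
    rw [← hρO, hmem] at h
    exact hlam𝔞 ((hiff _ _ (fun m => by rw [hO1, hOS])).mp h)
  · intro x hx
    have : θ x = ρbar (ι x) := hj (by rw [hθ, hρbar])
    rw [this, hmem]
    exact hG (Ideal.subset_span ⟨x, hx, rfl⟩)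

end Out

end Fermat.Agent.RT.Even
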