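/-
K-machine (row 37 / S59), piece EVEN, part (d): PATCHING WITH A RESTRICTED SET OF SCALARS.
(helper27)   Mathlib-only (on top of `RT/P`).

In the symmetric Taylor–Wiles design the rings `R¹`, `R^χ` only see the EVEN power series
`S^ev ⊆ S`.  This file is the fork of the patching theorem `rtp_patch` (`RT/P/Main.lean`) in
which the conditions `scal1`, `scalχ` ("`S` acts through `R`") are asked for the scalars in a
given subset `Ev ⊆ S` only.  Nothing else changes: the limit argument treats every scalar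
separately (`rtp_scal_limit`).

* `RtevenLevel`   : the conditions at level `n` (= `RtpLevel` with `scal` for `s ∈ Ev`);
* `RtevenPatched` : the conditions on the patched pair (= `RtpPatched` with `scal` for `s ∈ Ev`);
* `rteven_patch`, `rteven_patch_cnl`, `rteven_patch_powerSeries` : the patching theorem and
  its two wrappers.
-/
import Fermat.Agent.RT.P.Cnl

set_option autoImplicit false

namespace Fermat.Agent.RT.Even

open Ideal IsLocalRing Fermat.Agent.RT.P Fermat.Agent.RT.K2c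

section Defs

variable {O : Type*} [CommRing O] {S : Type*} [CommRing S] [Algebra O S] (I 𝔞 𝔩 : Ideal S)
  {R0 : Type*} [CommRing R0] [Algebra O R0]
  {R1 : Type*} [CommRing R1] [Algebra O R1]
  {Rχ : Type*} [CommRing Rχ] [Algebra O Rχ]
  (ι : R0 →ₐ[O] R1) {d : ℕ}
  (θ : R0 →ₐ[O] Matrix (Fin d) (Fin d) (S ⧸ 𝔞))
  (T0 : Set (Matrix (Fin d) (Fin d) (S ⧸ 𝔞)))
  (E : R1 → Rχ → Prop) (Ev : Set S)

/-- The conditions at level `n`, with scalars in `Ev` only. -/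
structure RtevenLevel (n : ℕ) (ρ1 : R1 →ₐ[O] Matrix (Fin d) (Fin d) (S ⧸ I ^ n))
    (ρχ : Rχ →ₐ[O] Matrix (Fin d) (Fin d) (S ⧸ I ^ n)) : Prop where
  base_loc : ∀ r0 : R0,
    (ρ1 (ι r0)).map (Ideal.Quotient.factor (le_sup_right : I ^ n ≤ 𝔞 ⊔ I ^ n)) =
      (θ r0).map (Ideal.Quotient.factor (le_sup_left : 𝔞 ≤ 𝔞 ⊔ I ^ n))
  base_T0 : ∀ r1 : R1, ∃ t ∈ T0,
    (ρ1 r1).map (Ideal.Quotient.factor (le_sup_right : I ^ n ≤ 𝔞 ⊔ I ^ n)) =
      t.map (Ideal.Quotient.factor (le_sup_left : 𝔞 ≤ 𝔞 ⊔ I ^ n))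
  cong : ∀ r1 rχ, E r1 rχ →
    (ρ1 r1).map (Ideal.Quotient.factor (le_sup_right : I ^ n ≤ 𝔩 ⊔ I ^ n)) =
      (ρχ rχ).map (Ideal.Quotient.factor (le_sup_right : I ^ n ≤ 𝔩 ⊔ I ^ n))
  scal1 : ∀ s ∈ Ev, ∃ r, ρ1 r = algebraMap S (Matrix (Fin d) (Fin d) (S ⧸ I ^ n)) s
  scalχ : ∀ s ∈ Ev, ∃ r, ρχ r = algebraMap S (Matrix (Fin d) (Fin d) (S ⧸ I ^ n)) s

/-- The conditions on the patched pair, with scalars in `Ev` only. -/
structure RtevenPatched (ρ1 : R1 →ₐ[O] Matrix (Fin d) (Fin d) S)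
    (ρχ : Rχ →ₐ[O] Matrix (Fin d) (Fin d) S) : Prop where
  base_loc : ∀ r0 : R0, (ρ1 (ι r0)).map (Ideal.Quotient.mk 𝔞) = θ r0
  base_T0 : ∀ r1 : R1, (ρ1 r1).map (Ideal.Quotient.mk 𝔞) ∈ T0
  cong : ∀ r1 rχ, E r1 rχ →
    (ρ1 r1).map (Ideal.Quotient.mk 𝔩) = (ρχ rχ).map (Ideal.Quotient.mk 𝔩)
  scal1 : ∀ s ∈ Ev, ∃ r, ρ1 r = algebraMap S (Matrix (Fin d) (Fin d) S) s
  scalχ : ∀ s ∈ Ev, ∃ r, ρχ r = algebraMap S (Matrix (Fin d) (Fin d) S) s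

variable {I 𝔞 𝔩 ι θ T0 E Ev}

/-- A level datum with all scalars is a level datum with scalars in `Ev`. -/
theorem RtevenLevel.of_rtpLevel {n : ℕ} {ρ1 : R1 →ₐ[O] Matrix (Fin d) (Fin d) (S ⧸ I ^ n)}
    {ρχ : Rχ →ₐ[O] Matrix (Fin d) (Fin d) (S ⧸ I ^ n)}
    (H : RtpLevel I 𝔞 𝔩 ι θ T0 E n ρ1 ρχ) : RtevenLevel I 𝔞 𝔩 ι θ T0 E Ev n ρ1 ρχ :=
  ⟨H.base_loc, H.base_T0, H.cong, fun s _ => H.scal1 s, fun s _ => H.scalχ s⟩

theorem RtevenLevel.reduce {m n : ℕ} (h : m ≤ n)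
    {ρ1 : R1 →ₐ[O] Matrix (Fin d) (Fin d) (S ⧸ I ^ n)}
    {ρχ : Rχ →ₐ[O] Matrix (Fin d) (Fin d) (S ⧸ I ^ n)}
    (H : RtevenLevel I 𝔞 𝔩 ι θ T0 E Ev n ρ1 ρχ) :
    RtevenLevel I 𝔞 𝔩 ι θ T0 E Ev m (rtpRed I h ρ1) (rtpRed I h ρχ) := by
  have hpow : I ^ n ≤ I ^ m := Ideal.pow_le_pow_right h
  have h𝔞 : 𝔞 ⊔ I ^ n ≤ 𝔞 ⊔ I ^ m := sup_le_sup_left hpow 𝔞
  have h𝔩 : 𝔩 ⊔ I ^ n ≤ 𝔩 ⊔ I ^ m := sup_le_sup_left hpow 𝔩
  refine ⟨?_, ?_, ?_, ?_, ?_⟩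
  · intro r0
    have := congrArg (fun M => M.map (Ideal.Quotient.factor h𝔞)) (H.base_loc r0)
    simp only [rtp_map_factor_factor] at this
    rw [rtpRed_apply, rtp_map_factor_factor]
    exact this
  · intro r1
    obtain ⟨t, ht, h1⟩ := H.base_T0 r1
    refine ⟨t, ht, ?_⟩
    have := congrArg (fun M => M.map (Ideal.Quotient.factor h𝔞)) h1
    simp only [rtp_map_factor_factor] at this
    rw [rtpRed_apply, rtp_map_factor_factor]
    exact this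
  · intro r1 rχ hE
    have := congrArg (fun M => M.map (Ideal.Quotient.factor h𝔩)) (H.cong r1 rχ hE)
    simp only [rtp_map_factor_factor] at this
    rw [rtpRed_apply, rtpRed_apply, rtp_map_factor_factor, rtp_map_factor_factor]
    exact this
  · intro s hs
    obtain ⟨r, hr⟩ := H.scal1 s hs
    refine ⟨r, ?_⟩
    rw [rtpRed_apply, hr, rtp_map_algebraMap_factor]
  · intro s hs
    obtain ⟨r, hr⟩ := H.scalχ s hs
    refine ⟨r, ?_⟩
    rw [rtpRed_apply, hr, rtp_map_algebraMap_factor]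

end Defs

section Main

variable {O : Type*} [CommRing O] {S : Type*} [CommRing S] [Algebra O S] (I 𝔞 𝔩 : Ideal S)
  {R0 : Type*} [CommRing R0] [Algebra O R0]
  {R1 : Type*} [CommRing R1] [Algebra O R1]
  {Rχ : Type*} [CommRing Rχ] [Algebra O Rχ]
  (ι : R0 →ₐ[O] R1) {d : ℕ}
  (θ : R0 →ₐ[O] Matrix (Fin d) (Fin d) (S ⧸ 𝔞))
  (T0 : Set (Matrix (Fin d) (Fin d) (S ⧸ 𝔞)))
  (E : R1 → Rχ → Prop) (Ev : Set S)

/-- **The patching theorem (matrix core), scalars in `Ev` only.** -/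
theorem rteven_patch [IsAdicComplete I S] (hS : ∀ n, Finite (S ⧸ I ^ n))
    (h𝔞 : ∀ s, (∀ n, s ∈ 𝔞 ⊔ I ^ n) → s ∈ 𝔞) (h𝔩 : ∀ s, (∀ n, s ∈ 𝔩 ⊔ I ^ n) → s ∈ 𝔩)
    (hT0 : ∀ t : Matrix (Fin d) (Fin d) (S ⧸ 𝔞),
      (∀ n, ∃ t' ∈ T0, t.map (Ideal.Quotient.factor (le_sup_left : 𝔞 ≤ 𝔞 ⊔ I ^ n)) =
        t'.map (Ideal.Quotient.factor (le_sup_left : 𝔞 ≤ 𝔞 ⊔ I ^ n))) → t ∈ T0)
    (J1 : Ideal R1) (hJ1 : J1 ≤ Ideal.jacobson ⊥) [IsPrecomplete J1 R1]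
    (hR1 : ∀ k, Finite (R1 ⧸ J1 ^ k))
    (Jχ : Ideal Rχ) (hJχ : Jχ ≤ Ideal.jacobson ⊥) [IsPrecomplete Jχ Rχ]
    (hRχ : ∀ k, Finite (Rχ ⧸ Jχ ^ k))
    (hlev : ∀ n, ∃ ρ1 ρχ, RtevenLevel I 𝔞 𝔩 ι θ T0 E Ev n ρ1 ρχ) :
    ∃ ρ1 ρχ, RtevenPatched 𝔞 𝔩 ι θ T0 E Ev ρ1 ρχ := by
  classical
  have hfinM : ∀ n, Finite (Matrix (Fin d) (Fin d) (S ⧸ I ^ n)) := fun n => by
    have := hS n
    exact inferInstanceAs (Finite (Fin d → Fin d → S ⧸ I ^ n))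
  have hfin1 : ∀ n, Finite (R1 →ₐ[O] Matrix (Fin d) (Fin d) (S ⧸ I ^ n)) := fun n => by
    have := hfinM n
    exact rtp_finite_algHom J1 hJ1 hR1
  have hfinχ : ∀ n, Finite (Rχ →ₐ[O] Matrix (Fin d) (Fin d) (S ⧸ I ^ n)) := fun n => by
    have := hfinM n
    exact rtp_finite_algHom Jχ hJχ hRχ
  -- the inverse system of the level sets
  let X : ℕ → Type _ := fun n =>
    {p : (R1 →ₐ[O] Matrix (Fin d) (Fin d) (S ⧸ I ^ n)) ×
        (Rχ →ₐ[O] Matrix (Fin d) (Fin d) (S ⧸ I ^ n)) //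
      RtevenLevel I 𝔞 𝔩 ι θ T0 E Ev n p.1 p.2}
  have hXfin : ∀ n, Finite (X n) := fun n => by
    have := hfin1 n
    have := hfinχ n
    exact Subtype.finite
  have hXne : ∀ n, Nonempty (X n) := fun n => by
    obtain ⟨ρ1, ρχ, h⟩ := hlev n
    exact ⟨⟨(ρ1, ρχ), h⟩⟩
  let π : ∀ {i j : ℕ}, i ≤ j → X j → X i := fun {i j} hij p =>
    ⟨(rtpRed I hij p.1.1, rtpRed I hij p.1.2), p.2.reduce hij⟩
  have π_refl : ∀ ⦃i⦄ (a : X i), π (le_refl i) a = a := by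
    intro i a
    apply Subtype.ext
    exact Prod.ext (rtpRed_refl I _) (rtpRed_refl I _)
  have π_trans : ∀ ⦃i j k⦄ (hij : i ≤ j) (hjk : j ≤ k) (a : X k),
      π hij (π hjk a) = π (hij.trans hjk) a := by
    intro i j k hij hjk a
    apply Subtype.ext
    exact Prod.ext (rtpRed_trans I hij hjk _) (rtpRed_trans I hij hjk _)
  have := hXfin 0
  obtain ⟨x, hx⟩ := exists_seq_forall_proj_of_forall_finite (α := X)
    (fun {i j} hij => π hij) π_refl π_trans (fun i a => by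
      have := hXfin (i + 1)
      exact Set.toFinite _)
  -- the limits
  have hc1 : ∀ {m n : ℕ} (h : m ≤ n),
      (Ideal.Quotient.factorₐ O (Ideal.pow_le_pow_right h)).mapMatrix.comp (x n).1.1 =
        (x m).1.1 := fun {m n} h => congrArg (fun p : X m => p.1.1) (hx h)
  have hcχ : ∀ {m n : ℕ} (h : m ≤ n),
      (Ideal.Quotient.factorₐ O (Ideal.pow_le_pow_right h)).mapMatrix.comp (x n).1.2 =
        (x m).1.2 := fun {m n} h => congrArg (fun p : X m => p.1.2) (hx h)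
  obtain ⟨ρ1, hρ1⟩ := rtp_lift_algHom I (fun n => (x n).1.1) hc1
  obtain ⟨ρχ, hρχ⟩ := rtp_lift_algHom I (fun n => (x n).1.2) hcχ
  refine ⟨ρ1, ρχ, ⟨?_, ?_, ?_, ?_, ?_⟩⟩
  · intro r0
    apply rtp_matrix_ext_closed I 𝔞 h𝔞
    intro n
    rw [rtp_map_mk_factor, ← (x n).2.base_loc r0, ← hρ1 n, rtp_map_mk_factor]
  · intro r1
    apply hT0
    intro n
    obtain ⟨t, ht, h1⟩ := (x n).2.base_T0 r1
    refine ⟨t, ht, ?_⟩
    rw [rtp_map_mk_factor, ← h1, ← hρ1 n, rtp_map_mk_factor]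
  · intro r1 rχ hE
    apply rtp_matrix_ext_closed I 𝔩 h𝔩
    intro n
    rw [rtp_map_mk_factor, rtp_map_mk_factor]
    have := (x n).2.cong r1 rχ hE
    rw [← hρ1 n, ← hρχ n, rtp_map_mk_factor, rtp_map_mk_factor] at this
    exact this
  · intro s hs
    apply rtp_scal_limit I hS J1 hJ1 hR1 ρ1 s
    intro n
    obtain ⟨r, hr⟩ := (x n).2.scal1 s hs
    exact ⟨r, by rw [hρ1 n, hr]⟩
  · intro s hs
    apply rtp_scal_limit I hS Jχ hJχ hRχ ρχ s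
    intro n
    obtain ⟨r, hr⟩ := (x n).2.scalχ s hs
    exact ⟨r, by rw [hρχ n, hr]⟩

end Main

section Cnl

variable {O : Type*} [CommRing O] {S : Type*} [CommRing S] [Algebra O S] (𝔞 𝔩 : Ideal S)
  {R0 : Type*} [CommRing R0] [Algebra O R0]
  {R1 : Type*} [CommRing R1] [Algebra O R1]
  {Rχ : Type*} [CommRing Rχ] [Algebra O Rχ]
  (ι : R0 →ₐ[O] R1) {d : ℕ}
  (θ : R0 →ₐ[O] Matrix (Fin d) (Fin d) (S ⧸ 𝔞))
  (E : R1 → Rχ → Prop) (Ev : Set S)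

/-- **Patching for complete Noetherian local rings with finite residue fields**, scalars in
`Ev` only. -/
theorem rteven_patch_cnl [IsNoetherianRing S] [IsLocalRing S]
    [IsAdicComplete (maximalIdeal S) S] [Finite (ResidueField S)]
    [IsNoetherianRing R1] [IsLocalRing R1] [IsPrecomplete (maximalIdeal R1) R1]
    [Finite (ResidueField R1)]
    [IsNoetherianRing Rχ] [IsLocalRing Rχ] [IsPrecomplete (maximalIdeal Rχ) Rχ]
    [Finite (ResidueField Rχ)]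
    (N : Submodule S (Matrix (Fin d) (Fin d) (S ⧸ 𝔞)))
    (hlev : ∀ n, ∃ ρ1 ρχ, RtevenLevel (maximalIdeal S) 𝔞 𝔩 ι θ
      (N : Set (Matrix (Fin d) (Fin d) (S ⧸ 𝔞))) E Ev n ρ1 ρχ) :
    ∃ ρ1 ρχ, RtevenPatched 𝔞 𝔩 ι θ (N : Set (Matrix (Fin d) (Fin d) (S ⧸ 𝔞))) E Ev ρ1 ρχ :=
  rteven_patch (maximalIdeal S) 𝔞 𝔩 ι θ _ E Ev (fun n => rtk2c_finite_quotient_pow n)
    (rtk2c_closed 𝔞) (rtk2c_closed 𝔩)
    (rtp_closed_submodule (maximalIdeal S) 𝔞 (maximalIdeal_le_jacobson ⊥) N)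
    (maximalIdeal R1) (maximalIdeal_le_jacobson ⊥) (fun k => rtk2c_finite_quotient_pow k)
    (maximalIdeal Rχ) (maximalIdeal_le_jacobson ⊥) (fun k => rtk2c_finite_quotient_pow k)
    hlev

end Cnl

section PowerSeries

variable {O : Type*} [CommRing O] [IsLocalRing O] [IsNoetherianRing O]
  [IsAdicComplete (maximalIdeal O) O] [Finite (ResidueField O)]
  {σ τ1 τχ : Type*} [Finite σ] [Finite τ1] [Finite τχ]
  (𝔞 𝔩 : Ideal (MvPowerSeries σ O))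
  {R0 : Type*} [CommRing R0] [Algebra O R0]
  {R1 : Type*} [CommRing R1] [Algebra O R1] [Nontrivial R1]
  {Rχ : Type*} [CommRing Rχ] [Algebra O Rχ] [Nontrivial Rχ]
  (ι : R0 →ₐ[O] R1) {d : ℕ}
  (θ : R0 →ₐ[O] Matrix (Fin d) (Fin d) (MvPowerSeries σ O ⧸ 𝔞))
  (E : R1 → Rχ → Prop) (Ev : Set (MvPowerSeries σ O))

/-- **Patching for quotients of power series rings**, scalars in `Ev` only: `S = O[[σ]]`, `R1`
and `Rχ` quotients of power series rings over `O`, where `O` is a complete Noetherian local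
ring with finite residue field; `T0 = N` is an `S`-submodule of `M_d(S ⧸ 𝔞)`. -/
theorem rteven_patch_powerSeries
    (f1 : MvPowerSeries τ1 O →+* R1) (hf1 : Function.Surjective f1)
    (fχ : MvPowerSeries τχ O →+* Rχ) (hfχ : Function.Surjective fχ)
    (N : Submodule (MvPowerSeries σ O) (Matrix (Fin d) (Fin d) (MvPowerSeries σ O ⧸ 𝔞)))
    (hlev : ∀ n, ∃ ρ1 ρχ, RtevenLevel (maximalIdeal (MvPowerSeries σ O)) 𝔞 𝔩 ι θ
      (N : Set (Matrix (Fin d) (Fin d) (MvPowerSeries σ O ⧸ 𝔞))) E Ev n ρ1 ρχ) :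
    ∃ ρ1 ρχ, RtevenPatched 𝔞 𝔩 ι θ
      (N : Set (Matrix (Fin d) (Fin d) (MvPowerSeries σ O ⧸ 𝔞))) E Ev ρ1 ρχ := by
  have hS : IsAdicComplete (maximalIdeal (MvPowerSeries σ O)) (MvPowerSeries σ O) :=
    rtk2c_isAdicComplete
  have hSf : Finite (ResidueField (MvPowerSeries σ O)) := rtk2c_finite_residueField
  have hP1 : IsAdicComplete (maximalIdeal (MvPowerSeries τ1 O)) (MvPowerSeries τ1 O) :=
    rtk2c_isAdicComplete
  have hP1f : Finite (ResidueField (MvPowerSeries τ1 O)) := rtk2c_finite_residueField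
  have hPχ : IsAdicComplete (maximalIdeal (MvPowerSeries τχ O)) (MvPowerSeries τχ O) :=
    rtk2c_isAdicComplete
  have hPχf : Finite (ResidueField (MvPowerSeries τχ O)) := rtk2c_finite_residueField
  have hR1l : IsLocalRing R1 := IsLocalRing.of_surjective' f1 hf1
  have hRχl : IsLocalRing Rχ := IsLocalRing.of_surjective' fχ hfχ
  have hR1n : IsNoetherianRing R1 := isNoetherianRing_of_surjective _ R1 f1 hf1
  have hRχn : IsNoetherianRing Rχ := isNoetherianRing_of_surjective _ Rχ fχ hfχ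
  have hR1c : IsAdicComplete (maximalIdeal R1) R1 := rtk2c_isAdicComplete_of_surjective f1 hf1
  have hRχc : IsAdicComplete (maximalIdeal Rχ) Rχ := rtk2c_isAdicComplete_of_surjective fχ hfχ
  have hR1f : Finite (ResidueField R1) := rtk2c_finite_residueField_of_surjective f1 hf1
  have hRχf : Finite (ResidueField Rχ) := rtk2c_finite_residueField_of_surjective fχ hfχ
  exact rteven_patch_cnl 𝔞 𝔩 ι θ E Ev N hlev

end PowerSeries

end Fermat.Agent.RT.Even
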