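/-
K-machine (row 37 / S59), piece EVEN: `stmtOutTWE_of : StmtEvenSq → StmtOutTWE`   (helper27)

The even form of GLUE 1 (`RT/PlanTWE.lean`), from
* the patching theorem with a restricted set of scalars (`RT/Even/Patch.lean`),
* the output point with even scalars (`RT/Even/Out.lean`),
* the facts on the squaring endomorphism `sq` of `S = O[[w_1, …, w_m]]`
  (`w_i ↦ w_i ^ 2` for `i < h`), collected in the proposition `StmtEvenSq` below
  (`sq` injective, finite, with even values, and `𝔞 ^ k ≤ sq(𝔞) S` for some `k`).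
The rest is `RT/Out.lean` word for word.
-/
import Fermat.Agent.RT.PlanTWE
import Fermat.Agent.RT.Out
import Fermat.Agent.RT.Even.Patch
import Fermat.Agent.RT.Even.Out

set_option autoImplicit false
set_option linter.style.haveILetI false

namespace Fermat.Agent.RT.Even

open Fermat.Agent.RT Fermat.Agent.RT.K2 Fermat.Agent.RT.K2b Fermat.Agent.RT.K4
  Fermat.Agent.RT.P
open MvPowerSeries IsLocalRing

/-- **The facts on the squaring endomorphism** (`RT/Even/Sq.lean`): there is an injective finite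
`O`-algebra endomorphism `sq` of `S = O[[w_1, …, w_m]]` whose values are even in the first `h`
variables and such that `𝔞 ^ k ≤ sq(𝔞) S` for some `k` (`sq : w_i ↦ w_i ^ 2` for `i < h`,
`w_i ↦ w_i` for `h ≤ i`; `k = h + 1`). -/
def StmtEvenSq : Prop :=
  ∀ (O : Type) [CommRing O] [IsDomain O] [IsDiscreteValuationRing O] (m h : ℕ),
    ∃ (sq : RttwS O m →ₐ[O] RttwS O m) (k : ℕ), Function.Injective sq ∧
      (sq : RttwS O m →+* RttwS O m).Finite ∧ (∀ f, sq f ∈ rttwEven O m h) ∧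
      rttwAug O m ^ k ≤ (rttwAug O m).map (sq : RttwS O m →+* RttwS O m)

section Level

variable {O : Type*} [CommRing O] [IsLocalRing O] {ι τ : Type*} (m : ℕ) {d : ℕ}
  {T0 : Type*} [CommRing T0] [Algebra O T0]

/-- **From `TWLevelE` to `RtevenLevel`** (the proof of `rttwo_level`). -/
theorem rteven_level (q δ : ι → O) (lam : O)
    (hle : rtk2Ichi τ δ ≤ rtk2Ione τ q ⊔ Ideal.span {(C lam : Rtk2P O ι τ)})
    (j : T0 →ₐ[O] Matrix (Fin d) (Fin d) O) (B : ι × Fin 6 → T0) (h n : ℕ)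
    (ρ1 ρχ : Rtk2P O ι τ →ₐ[O]
      Matrix (Fin d) (Fin d) (RttwS O m ⧸ maximalIdeal (RttwS O m) ^ n))
    (H : TWLevelE (τ := τ) q δ lam m h d (fun x => j (B x)) (Set.range j) n ρ1 ρχ) :
    RtevenLevel (maximalIdeal (RttwS O m)) (rttwAug O m) (rttwLam m lam) (rttwoIota τ q)
      (rttwoTheta m j B)
      (rttwoN m j : Set (Matrix (Fin d) (Fin d) (RttwS O m ⧸ rttwAug O m)))
      (fun r1 rχ => rttwoF1 τ q lam r1 = rttwoFchi q δ lam hle rχ) (rttwEven O m h) n
      (Ideal.Quotient.liftₐ (rtk2Ione τ q) ρ1 H.kills1)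
      (Ideal.Quotient.liftₐ (rtk2Ichi τ δ) ρχ H.killsχ) := by
  have hl1 : ∀ u, Ideal.Quotient.liftₐ (rtk2Ione τ q) ρ1 H.kills1
      (Ideal.Quotient.mk (rtk2Ione τ q) u) = ρ1 u := fun u => rfl
  have hlχ : ∀ u, Ideal.Quotient.liftₐ (rtk2Ichi τ δ) ρχ H.killsχ
      (Ideal.Quotient.mk (rtk2Ichi τ δ) u) = ρχ u := fun u => rfl
  refine ⟨?_, ?_, ?_, ?_, ?_⟩
  · -- base_loc
    intro r0
    have key : ((Ideal.Quotient.factorₐ O
        (le_sup_right : maximalIdeal (RttwS O m) ^ n ≤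
          rttwAug O m ⊔ maximalIdeal (RttwS O m) ^ n)).mapMatrix.comp
        ((Ideal.Quotient.liftₐ (rtk2Ione τ q) ρ1 H.kills1).comp (rttwoIota τ q))) =
        ((Ideal.Quotient.factorₐ O
        (le_sup_left : rttwAug O m ≤
          rttwAug O m ⊔ maximalIdeal (RttwS O m) ^ n)).mapMatrix (m := Fin d)).comp
          (rttwoTheta m j B) := by
      apply MvPolynomial.algHom_ext
      rintro ⟨i, k⟩
      rw [AlgHom.comp_apply, AlgHom.comp_apply, AlgHom.comp_apply, AlgHom.mapMatrix_apply,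
        AlgHom.mapMatrix_apply]
      have e1 : rttwoIota τ q (MvPolynomial.X (i, k)) =
          Ideal.Quotient.mk (rtk2Ione τ q) (X (rtk2ix i k)) := by
        unfold rttwoIota
        rw [MvPolynomial.aeval_X]
      have e2 : rttwoTheta m j B (MvPolynomial.X (i, k)) = rttwoJb O m d (j (B (i, k))) := by
        unfold rttwoTheta
        rw [AlgHom.comp_apply, MvPolynomial.aeval_X]
        rfl
      rw [e1, hl1, e2]
      exact (H.base_loc i k).trans (rttwoJb_map_factor O m d n _).symm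
    exact DFunLike.congr_fun key r0
  · -- base_T0
    intro r1
    obtain ⟨u, rfl⟩ := Ideal.Quotient.mk_surjective r1
    obtain ⟨t, ⟨t0, rfl⟩, ht⟩ := H.base_T0 u
    refine ⟨rttwoJ m j t0, ⟨t0, rfl⟩, ?_⟩
    rw [hl1, ht, rttwoJ_apply, rttwoJb_map_factor]
  · -- cong
    intro r1 rχ hE
    obtain ⟨u, rfl⟩ := Ideal.Quotient.mk_surjective r1
    obtain ⟨u', rfl⟩ := Ideal.Quotient.mk_surjective rχ
    rw [hl1, hlχ, ← H.cong u']
    have hmem : u - u' ∈ rtk2Ione τ q ⊔ Ideal.span {(C lam : Rtk2P O ι τ)} := by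
      rw [← Ideal.Quotient.eq]
      exact hE
    -- the composite kills `I_1 ⊔ (λ)`
    let F : Rtk2P O ι τ →ₐ[O] Matrix (Fin d) (Fin d)
        (RttwS O m ⧸ (rttwLam m lam ⊔ maximalIdeal (RttwS O m) ^ n)) :=
      (Ideal.Quotient.factorₐ O
        (le_sup_right : maximalIdeal (RttwS O m) ^ n ≤
          rttwLam m lam ⊔ maximalIdeal (RttwS O m) ^ n)).mapMatrix.comp ρ1
    have hF : ∀ v, F v = (ρ1 v).map (Ideal.Quotient.factor
        (le_sup_right : maximalIdeal (RttwS O m) ^ n ≤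
          rttwLam m lam ⊔ maximalIdeal (RttwS O m) ^ n)) := fun v => rfl
    have hker : rtk2Ione τ q ⊔ Ideal.span {(C lam : Rtk2P O ι τ)} ≤
        RingHom.ker F.toRingHom := by
      refine sup_le ?_ ?_
      · intro v hv
        rw [RingHom.mem_ker]
        show F v = 0
        rw [hF, H.kills1 v hv]
        ext a b
        simp
      · rw [Ideal.span_le, Set.singleton_subset_iff, SetLike.mem_coe, RingHom.mem_ker]
        show F (C lam) = 0
        have : (C lam : Rtk2P O ι τ) = algebraMap O (Rtk2P O ι τ) lam := rfl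
        rw [this, AlgHom.commutes]
        exact rttwo_lam_eq_zero m lam _
    have := hker hmem
    rw [RingHom.mem_ker] at this
    have h2 : F u - F u' = 0 := by
      rw [← map_sub]
      exact this
    rw [← hF, ← hF]
    exact sub_eq_zero.mp h2
  · -- scal1
    intro s hs
    obtain ⟨u, hu⟩ := H.scal1 s hs
    exact ⟨Ideal.Quotient.mk _ u, (hl1 u).trans hu⟩
  · -- scalχ
    intro s hs
    obtain ⟨u, hu⟩ := H.scalχ s hs
    exact ⟨Ideal.Quotient.mk _ u, (hlχ u).trans hu⟩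

end Level

section Main

/-- **GLUE 1, even form**, from the facts on the squaring endomorphism. -/
theorem stmtOutTWE_of (Hsq : StmtEvenSq) : StmtOutTWE := by
  intro O _ _ _ _ _ lam hlam h2 ι τ _ _ q δ hq hq1 hδ m h d hm hd hIchi hQur hCr T0 _ _ _ j hj B
    hlev
  obtain ⟨sq, k, hsqinj, hsqfin, hsqev, hsqpow⟩ := Hsq O m h
  -- basic facts
  have hprime : (Ideal.span {lam}).IsPrime := hlam ▸ (maximalIdeal.isMaximal O).isPrime
  have h2' : (2 : O) ∉ Ideal.span {lam} := by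
    rw [← hlam]
    intro h
    exact (IsLocalRing.mem_maximalIdeal _).mp h h2
  have hirr : Irreducible lam :=
    (IsDiscreteValuationRing.irreducible_iff_uniformizer lam).mpr hlam
  have hlam0 : lam ≠ 0 := hirr.ne_zero
  have hq' : ∀ i, ∃ (e : ℕ) (u : O), lam ^ e = (1 - q i) * u := by
    intro i
    have hne : 1 - q i ≠ 0 := sub_ne_zero.mpr (hq1 i).symm
    obtain ⟨e, u, hu⟩ := IsDiscreteValuationRing.associated_pow_irreducible hne hirr
    exact ⟨e, u, hu.symm⟩
  have hδ' : ∀ i, δ i ∈ maximalIdeal O := by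
    intro i
    obtain ⟨r, hr⟩ := hδ i
    rw [hlam, hr]
    exact Ideal.mul_mem_right _ _ (Ideal.mem_span_singleton_self _)
  have hle : rtk2Ichi τ δ ≤ rtk2Ione τ q ⊔ Ideal.span {(C lam : Rtk2P O ι τ)} :=
    rtk2_Ichi_le_Ione_sup lam h2 hq hδ
  -- instances
  haveI : IsDomain (Rtk2Rchi τ δ) := Ideal.Quotient.isDomain _
  have hI1ne : rtk2Ione τ q ≠ ⊤ := by
    intro h
    apply hQur.ne_top
    rw [eq_top_iff, ← h]
    exact (rtk2_Ione_le_Iur q).trans le_sup_right
  haveI : Nontrivial (Rtk2Rone τ q) := Ideal.Quotient.nontrivial_iff.mpr hI1ne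
  -- patching
  obtain ⟨ρ1, ρχ, hP⟩ := rteven_patch_powerSeries (σ := Fin m) (rttwAug O m) (rttwLam m lam)
    (rttwoIota τ q) (rttwoTheta m j B)
    (fun r1 rχ => rttwoF1 τ q lam r1 = rttwoFchi q δ lam hle rχ) (rttwEven O m h)
    (Ideal.Quotient.mk (rtk2Ione τ q)) Ideal.Quotient.mk_surjective
    (Ideal.Quotient.mk (rtk2Ichi τ δ)) Ideal.Quotient.mk_surjective (rttwoN m j)
    (fun n => by
      obtain ⟨r1, rχ, h⟩ := hlev n
      exact ⟨_, _, rteven_level m q δ lam hle j B _ n r1 rχ h⟩)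
  -- the support argument
  haveI : IsDomain (RttwS O m) := NoZeroDivisors.to_isDomain _
  haveI := rttwo_aug_isPrime O m
  haveI := rtk2b_Qur_map_isPrime (τ := τ) lam hprime q
  obtain ⟨hq𝔮, hCr'⟩ := rtk2b_cramer_quot (τ := τ) lam hprime h2' q hq hq'
  have halg1 : algebraMap O (Rtk2Rone τ q) lam = Ideal.Quotient.mk (rtk2Ione τ q) (C lam) := rfl
  have halgχ : algebraMap O (Rtk2Rchi τ δ) lam = Ideal.Quotient.mk (rtk2Ichi τ δ) (C lam) := rfl
  obtain ⟨𝔓, h𝔓, hlam𝔓, hI⟩ := rteven_out_T0_of_dim (S'' := RttwS O m) (S := RttwS O m)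
    (R0 := MvPolynomial (ι × Fin 6) O) (R1 := Rtk2Rone τ q) (Rχ := Rtk2Rchi τ δ)
    (Rb := RttwoRb τ q lam) sq hsqinj hsqfin
    (rtk4_dim_mvPowerSeries_ne_top O m) (rtk2b_dim_Rchi_le_powerSeries lam hlam h2 δ hδ' m hm)
    lam
    (by
      rw [rttwo_algebraMap_S]
      intro h
      apply hlam0
      have := congrArg constantCoeff h
      rwa [constantCoeff_C, map_zero] at this)
    (rttwAug O m)
    (by
      rw [rttwo_algebraMap_S]
      unfold rttwAug
      rw [RingHom.mem_ker, constantCoeff_C]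
      exact hlam0)
    (rttwAug O m) k hsqpow
    (rttwoF1 τ q lam) (rttwoFchi q δ lam hle)
    (Ideal.Quotient.factor_surjective _) (Ideal.Quotient.factor_surjective _)
    (by
      intro x hx
      obtain ⟨u, rfl⟩ := Ideal.Quotient.mk_surjective x
      rw [RingHom.mem_ker] at hx
      have hu : u ∈ rtk2Ione τ q ⊔ Ideal.span {(C lam : Rtk2P O ι τ)} :=
        Ideal.Quotient.eq_zero_iff_mem.mp hx
      obtain ⟨v, hv, w, hw, rfl⟩ := Submodule.mem_sup.mp hu
      obtain ⟨c, rfl⟩ := Ideal.mem_span_singleton'.mp hw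
      rw [map_add, Ideal.Quotient.eq_zero_iff_mem.mpr hv, zero_add, map_mul, halg1]
      exact Ideal.mul_mem_left _ _ (Ideal.mem_span_singleton_self _))
    (by
      rw [halgχ]
      exact Ideal.Quotient.eq_zero_iff_mem.mpr
        (Ideal.mem_sup_right (Ideal.mem_span_singleton_self _)))
    hd ρ1 ρχ (fun r1 rχ h => hP.cong r1 rχ h)
    (fun s => hP.scal1 (sq s) (hsqev s)) (fun s => hP.scalχ (sq s) (hsqev s))
    ((rttwoIota τ q : MvPolynomial (ι × Fin 6) O →ₐ[O] Rtk2Rone τ q) :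
      MvPolynomial (ι × Fin 6) O →+* Rtk2Rone τ q)
    (rttwoUr O ι)
    ((rtk2Qur ι τ lam).map (Ideal.Quotient.mk (rtk2Ione τ q))) hq𝔮
    (by
      intro x hx
      obtain ⟨y, hy, hxy⟩ := rttwo_iota_mem τ q x hx
      obtain ⟨e, D, hD, h0⟩ := hCr' y hy
      refine ⟨e, D, hD, ?_⟩
      rw [← h0, hxy]
      rfl)
    (rttwoJ m j) (rttwoJ_injective m j hj)
    (fun r1 => hP.base_T0 r1)
    (fun r0 => MvPolynomial.aeval B r0)
    (fun r0 => (hP.base_loc r0).symm)
  refine ⟨𝔓, h𝔓, hlam𝔓, fun i => ⟨?_, ?_, ?_⟩⟩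
  · have := hI _ (Ideal.subset_span ⟨(i, 0), rfl⟩)
    rwa [MvPolynomial.aeval_X] at this
  · have := hI _ (Ideal.subset_span ⟨(i, 1), rfl⟩)
    rwa [MvPolynomial.aeval_X] at this
  · have := hI _ (Ideal.subset_span ⟨(i, 2), rfl⟩)
    rwa [MvPolynomial.aeval_X] at this

end Main

end Fermat.Agent.RT.Even
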