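import Fermat.Agent.RT.PlanTWE
import Fermat.Agent.RT.K2b.Gen

/-!
# K-machine, piece EVEN: the squaring substitution on a power series ring

`S = O[[w_1, …, w_m]]`, `sq = MvPowerSeries.expand 2 : S → S` (`w_i ↦ w_i²`).

* `rtevSq_injective`   : `sq` is injective;
* `rtev_decomp`        : `f = ∑_{b ∈ {0,1}^σ} w^b · sq (f_b)` — `S` is generated over `sq(S)` by the
                         `2^m` monomials `w^b`;
* `rtev_finite`        : the same as an existence statement (for `Module.Finite`);
* `rtev_aug_pow_le`    : a power of the augmentation ideal `𝔞 = (w_i)` is contained in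
                         `sq(𝔞) · S`.
-/

set_option autoImplicit false
set_option linter.style.haveILetI false

namespace Fermat.Agent.RT.Even

open MvPowerSeries

section Sq

variable {σ : Type*} {O : Type*} [CommRing O]

/-- The squaring substitution `w_i ↦ w_i²`. -/
noncomputable abbrev rtevSq : MvPowerSeries σ O →ₐ[O] MvPowerSeries σ O :=
  expand 2 two_ne_zero

theorem rtevSq_injective : Function.Injective (rtevSq (σ := σ) (O := O)) := by
  intro f g h
  ext m
  rw [← coeff_expand_smul 2 two_ne_zero f m, ← coeff_expand_smul 2 two_ne_zero g m]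
  exact congrArg _ h

variable [Fintype σ]

/-- The exponent of the monomial `w^b`. -/
noncomputable def rtevExp (b : σ → Bool) : σ →₀ ℕ :=
  Finsupp.equivFunOnFinite.symm fun i => if b i then 1 else 0

@[simp] theorem rtevExp_apply (b : σ → Bool) (i : σ) : rtevExp b i = if b i then 1 else 0 := rfl

/-- The parity of an exponent. -/
def rtevPar (n : σ →₀ ℕ) : σ → Bool := fun i => decide (n i % 2 = 1)

/-- The half of an exponent. -/
noncomputable def rtevHalf (n : σ →₀ ℕ) : σ →₀ ℕ :=
  Finsupp.equivFunOnFinite.symm fun i => n i / 2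

@[simp] theorem rtevHalf_apply (n : σ →₀ ℕ) (i : σ) : rtevHalf n i = n i / 2 := rfl

theorem rtev_two_half_add (n : σ →₀ ℕ) : 2 • rtevHalf n + rtevExp (rtevPar n) = n := by
  ext i
  simp only [Finsupp.coe_add, Finsupp.coe_smul, Pi.add_apply, Pi.smul_apply, rtevHalf_apply,
    rtevExp_apply, rtevPar, smul_eq_mul, decide_eq_true_eq]
  split_ifs with h <;> omega

theorem rtevExp_par_le (n : σ →₀ ℕ) : rtevExp (rtevPar n) ≤ n := by
  intro i
  simp only [rtevExp_apply, rtevPar, decide_eq_true_eq]
  split_ifs with h <;> omega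

/-- The component `f_b` of `f`: `coeff m f_b = coeff (2m + b) f`. -/
noncomputable def rtevComp (b : σ → Bool) (f : MvPowerSeries σ O) : MvPowerSeries σ O :=
  fun m => coeff (2 • m + rtevExp b) f

theorem coeff_rtevComp (b : σ → Bool) (f : MvPowerSeries σ O) (m : σ →₀ ℕ) :
    coeff m (rtevComp b f) = coeff (2 • m + rtevExp b) f := rfl

/-- The coefficients of `w^b · sq g`. -/
theorem rtev_coeff_monomial_mul_sq (b : σ → Bool) (g : MvPowerSeries σ O) (n : σ →₀ ℕ) :
    coeff n (monomial (rtevExp b) (1 : O) * rtevSq g) =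
      if b = rtevPar n then coeff (rtevHalf n) g else 0 := by
  rw [coeff_monomial_mul]
  by_cases hb : b = rtevPar n
  · subst hb
    rw [if_pos (rtevExp_par_le n), if_pos rfl, one_mul]
    have e : n - rtevExp (rtevPar n) = 2 • rtevHalf n :=
      tsub_eq_of_eq_add (rtev_two_half_add n).symm
    rw [e, coeff_expand_smul]
  · rw [if_neg hb]
    split_ifs with hle
    · rw [one_mul]
      -- some coordinate of `n - b` is odd
      obtain ⟨i, hi⟩ : ∃ i, b i ≠ rtevPar n i := by
        by_contra hcon
        exact hb (funext fun i => by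
          by_contra hne
          exact hcon ⟨i, hne⟩)
      have hlei := hle i
      refine coeff_expand_of_not_dvd 2 two_ne_zero _ (i := i) ?_
      simp only [Finsupp.coe_tsub, Pi.sub_apply, rtevExp_apply]
      simp only [rtevExp_apply] at hlei
      simp only [rtevPar] at hi
      by_cases hbi : b i
      · rw [if_pos hbi] at hlei ⊢
        have : ¬ (n i % 2 = 1) := by
          intro h
          apply hi
          rw [hbi]
          exact (decide_eq_true h).symm
        omega
      · rw [if_neg hbi] at hlei ⊢
        have : n i % 2 = 1 := by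
          by_contra h
          apply hi
          rw [Bool.not_eq_true] at hbi
          rw [hbi]
          exact (decide_eq_false h).symm
        omega
    · rfl

variable [DecidableEq σ]

/-- **The decomposition** `f = ∑_b w^b · sq (f_b)`. -/
theorem rtev_decomp (f : MvPowerSeries σ O) :
    f = ∑ b : σ → Bool, monomial (rtevExp b) (1 : O) * rtevSq (rtevComp b f) := by
  ext n
  rw [map_sum, Finset.sum_eq_single (rtevPar n)]
  · rw [rtev_coeff_monomial_mul_sq, if_pos rfl, coeff_rtevComp, rtev_two_half_add]
  · intro b _ hb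
    rw [rtev_coeff_monomial_mul_sq, if_neg hb]
  · intro h
    exact absurd (Finset.mem_univ _) h

/-- **Finiteness** of `S` over `sq(S)`, in elementary form. -/
theorem rtev_finite : ∃ (N : ℕ) (u : Fin N → MvPowerSeries σ O), ∀ f : MvPowerSeries σ O,
    ∃ c : Fin N → MvPowerSeries σ O, f = ∑ k, rtevSq (c k) * u k := by
  classical
  let e := Fintype.equivFin (σ → Bool)
  refine ⟨Fintype.card (σ → Bool), fun k => monomial (rtevExp (e.symm k)) (1 : O), fun f =>
    ⟨fun k => rtevComp (e.symm k) f, ?_⟩⟩
  conv_lhs => rw [rtev_decomp f]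
  rw [← e.symm.sum_comp]
  exact Finset.sum_congr rfl fun k _ => mul_comm _ _

end Sq

section Aug

variable {σ : Type*} {O : Type*} [CommRing O]

/-- `sq (X i) = X i ^ 2` lies in `sq(𝔞) · S`. -/
theorem rtev_X_sq_mem (i : σ) :
    (X i : MvPowerSeries σ O) ^ 2 ∈
      Ideal.map (rtevSq (σ := σ) (O := O)) (RingHom.ker (constantCoeff (σ := σ) (R := O))) := by
  have h : (X i : MvPowerSeries σ O) ∈ RingHom.ker (constantCoeff (σ := σ) (R := O)) := by
    rw [RingHom.mem_ker, constantCoeff_X]
  have := Ideal.mem_map_of_mem (rtevSq (σ := σ) (O := O)) h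
  rwa [expand_X] at this

/-- The augmentation ideal is generated by the variables. -/
theorem rtev_aug_eq_span [Finite σ] :
    RingHom.ker (constantCoeff (σ := σ) (R := O)) =
      Ideal.span (Set.range (X : σ → MvPowerSeries σ O)) := by
  refine le_antisymm (fun f hf => Fermat.Agent.RT.K2b.rtk2b_mem_span_X f hf) ?_
  rw [Ideal.span_le]
  rintro _ ⟨i, rfl⟩
  rw [SetLike.mem_coe, RingHom.mem_ker, constantCoeff_X]

/-- **A power of the augmentation ideal lies in `sq(𝔞) · S`.** -/
theorem rtev_aug_pow_le_gen [Finite σ] :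
    ∃ k : ℕ, RingHom.ker (constantCoeff (σ := σ) (R := O)) ^ k ≤
      Ideal.map (rtevSq (σ := σ) (O := O)) (RingHom.ker (constantCoeff (σ := σ) (R := O))) := by
  refine Ideal.exists_pow_le_of_le_radical_of_fg ?_ ?_
  · rw [rtev_aug_eq_span (σ := σ) (O := O), Ideal.span_le]
    rintro _ ⟨i, rfl⟩
    refine ⟨2, ?_⟩
    have := rtev_X_sq_mem (O := O) i
    rwa [rtev_aug_eq_span (σ := σ) (O := O)] at this
  · rw [rtev_aug_eq_span (σ := σ) (O := O)]
    exact Submodule.fg_span (Set.finite_range _)

/-- The image of `sq` consists of series with even exponents only. -/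
theorem rtev_coeff_sq_ne_zero (f : MvPowerSeries σ O) (e : σ →₀ ℕ)
    (h : coeff e (rtevSq f) ≠ 0) (i : σ) : Even (e i) := by
  by_contra hodd
  apply h
  refine coeff_expand_of_not_dvd 2 two_ne_zero f (i := i) ?_
  rwa [← even_iff_two_dvd]

end Aug

section FiniteGen

variable {A B : Type*} [CommRing A] [CommRing B]

/-- A ring homomorphism `f : A → B` such that `B = ∑ f(A) u_k` is finite. -/
theorem rtev_finite_of_generators (f : A →+* B) (N : ℕ) (u : Fin N → B)
    (hu : ∀ b : B, ∃ c : Fin N → A, b = ∑ k, f (c k) * u k) : f.Finite := by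
  letI : Algebra A B := f.toAlgebra
  have key : Module.Finite A B := by
    rw [Module.finite_def, Submodule.fg_iff_exists_fin_generating_family]
    refine ⟨N, u, eq_top_iff.mpr fun b _ => ?_⟩
    obtain ⟨c, hc⟩ := hu b
    rw [hc]
    refine Submodule.sum_mem _ fun k _ => ?_
    have e : f (c k) * u k = c k • u k := rfl
    rw [e]
    exact Submodule.smul_mem _ _ (Submodule.subset_span ⟨k, rfl⟩)
  exact key

end FiniteGen

/-! ## The interface for the assembly (`RT/Even/Out.lean`, helper27) -/

section Interface

open Fermat.Agent.RT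

/-- The squaring substitution on `S = O[[w_1, …, w_m]]`.  (ALL the variables are squared: the
image still lies in `rttwEven O m h`, which is all that is used.) -/
noncomputable def rtev_sq (O : Type*) [CommRing O] (m _h : ℕ) : RttwS O m →ₐ[O] RttwS O m :=
  rtevSq

variable (O : Type*) [CommRing O] (m h : ℕ)

theorem rtev_sq_apply (f : RttwS O m) : rtev_sq O m h f = rtevSq f := rfl

theorem rtev_sq_injective : Function.Injective (rtev_sq O m h) := rtevSq_injective

theorem rtev_sq_mem_even (f : RttwS O m) : rtev_sq O m h f ∈ rttwEven O m h :=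
  fun e he i _ => rtev_coeff_sq_ne_zero f e he i

/-- **`S` is finite over `sq(S)`.** -/
theorem rtev_sq_finite : (rtev_sq O m h).toRingHom.Finite := by
  classical
  obtain ⟨N, u, hu⟩ := rtev_finite (σ := Fin m) (O := O)
  exact rtev_finite_of_generators _ N u hu

theorem rtev_aug_pow_le : ∃ k : ℕ, rttwAug O m ^ k ≤ (rttwAug O m).map (rtev_sq O m h) :=
  rtev_aug_pow_le_gen

end Interface

end Fermat.Agent.RT.Even
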