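/-
K-machine (row 37 / S59), piece EVEN, DONE: `stmtOutTWE : StmtOutTWE`   (helper27 + helper97)

`stmtEvenSq : StmtEvenSq` from helper97's `RT/Even/Sq.lean` (`sq = MvPowerSeries.expand 2`), and
the even form of GLUE 1 without hypotheses; as a corollary the old form `StmtOutTW` again.
-/
import Fermat.Agent.RT.Even.Main
import Fermat.Agent.RT.Even.Sq

set_option autoImplicit false

namespace Fermat.Agent.RT.Even

open Fermat.Agent.RT

/-- The facts on the squaring endomorphism. -/
theorem stmtEvenSq : StmtEvenSq := by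
  intro O _ _ _ m h
  obtain ⟨k, hk⟩ := rtev_aug_pow_le O m h
  exact ⟨rtev_sq O m h, k, rtev_sq_injective O m h, rtev_sq_finite O m h,
    rtev_sq_mem_even O m h, hk⟩

/-- **GLUE 1, even form.** -/
theorem stmtOutTWE : StmtOutTWE := stmtOutTWE_of stmtEvenSq

end Fermat.Agent.RT.Even
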